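/-
GATE-B (S38/S43) / node GB-B8-TWLEVEL, file 10 (helper49): **plug of B8 into helper95's named B3
objects** (`GB/B3/Plug.lean`): the rank `d` of the big level `Plug.bigLevel Sy 𝔪 H h j` and of the
Taylor–Wiles data `Plug.tw …` satisfies

* `bigLevel_d_le`, `tw_L1_d_le`, `tw_Lχ_d_le` : `d ≤ D := finrank O Hom(Γ₀(M), O)` (independent of
  the Taylor–Wiles set), and
* `bigLevel_d_pos`, `tw_L1_d_pos`, `tw_Lχ_d_pos` : `0 < d` as soon as the level-`M` primary part is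
  non-zero (`bigLevel_d_pos_of_hres` : from `hres`),

under the standing hypotheses of `LevelIter.exists_baseEquiv` (level `N = M ∏_{s ∈ Q} pr s`,
`𝔪 = ker lamTop`).  These are the fields `0 < d`, `d ≤ D` of `GB/B9/System.TWSystem.level`.
-/
import Mathlib
import Fermat.Agent.GB.B8.LevelRank
import Fermat.Agent.GE8.P3B.GB.B3.Plug
import Fermat.Agent.GE8.P3B.StepGen
import Fermat.Agent.GE8.P3B.Ok3W

/- TWIN (helper6 B4 generator; conventions of helper24 / helper86) of `Fermat.Agent.GB.B8.LevelPlug` with `p ≠ 3` relaxed to `Ok3A Sy 𝔪 p` / `Ok3W p W` (RISK-5 fix (B), step B4); everything below lives in the wrapper namespace `Fermat.Agent.GE8.P3B`. -/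
set_option linter.dupNamespace false
open Fermat Fermat.Agent Fermat.Agent.GB Fermat.Agent.GB.B3 Fermat.Agent.GB.B3.HeckeActH Fermat.Agent.GB.B3.RealLevel Fermat.Agent.GB.B3.TWChars Fermat.Agent.GB.B8 Fermat.Agent.GB.B8.LevelGen Fermat.Agent.GB.B8.LevelIter Fermat.Agent.GB.B8.LevelRank Fermat.Agent.GB.B8.LevelStage

namespace Fermat.Agent.GE8.P3B

set_option autoImplicit false
set_option linter.unusedSectionVars false
set_option linter.style.haveILetI false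

open scoped MatrixGroups
open CongruenceSubgroup
open GB.B8.LevelStage GB.B8.LevelGen GB.B8.LevelIter
  GB.B8.LevelRank
open GB.B3 GB.B3.RealLevel GB.B3.HeckeActH
  GB.B3.TWChars GB.B3.Plug GB.B3.FinalTW

namespace GB.B8.LevelPlug

open MvPolynomial

variable {N p : ℕ} [NeZero N] [hpF : Fact p.Prime] {K : ℕ} {r e N' : ℕ → ℕ}
variable (Sy : Symbols N)
variable {O : Type} [CommRing O] [IsDomain O] [IsPrincipalIdealRing O] [IsLocalRing O]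
  [IsAdicComplete (IsLocalRing.maximalIdeal O) O] [Module.IsTorsionFree ℤ O]
variable (𝔪 : Ideal (Sy.𝕋 O)) [𝔪.IsMaximal]
variable (H : PrimeData N p K r e N') {ϖ : O} {s0 : Sy.ι₁} (h : Hyp Sy 𝔪 p ϖ s0)
variable {κ : Type} [Field κ] [Algebra O κ]
variable [DecidableEq Sy.ι₁] [DecidableEq Sy.ι₂]

/-- **`d ≤ D`** for the big level -/
theorem bigLevel_d_le (hℓ : Function.Injective Sy.ℓ) (hr : Function.Injective Sy.r)
    (hsurj : Function.Surjective (algebraMap O κ)) (M : ℕ) [NeZero M]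
    (lamBase lamTop : Sy.𝕋 O →ₐ[O] κ) (α β : Sy.ι₁ ⊕ Sy.ι₂ → O) (Q : Finset (Sy.ι₁ ⊕ Sy.ι₂))
    (hN : N = M * ∏ s ∈ Q, prSy Sy s) (hQM : ∀ s ∈ Q, ¬ prSy Sy s ∣ M)
    (hTW : ∀ s ∈ Q, TWCond (prSy Sy) lamBase lamTop α β s)
    (haway : ∀ s, s ∉ Q → lamTop (X s) = lamBase (X s))
    (h𝔪 : 𝔪 = RingHom.ker (lamTop : Sy.𝕋 O →+* κ)) (j : ℕ) :
    (bigLevel Sy 𝔪 H h j).d ≤ Module.finrank O (Additive (Gamma0 M) →+ O) := by
  rw [rank_eq_gamma0]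
  exact finrank_locSub_le Sy hℓ hr hsurj M lamBase lamTop α β Q hN hQM hTW haway 𝔪 h𝔪

/-- **`0 < d`** for the big level, from a non-zero primary element at the top level `N` -/
theorem bigLevel_d_pos_of_top
    (hx : ∃ x : Additive (Gamma0 N) →+ O, x ≠ 0 ∧ IsLoc (HeckeActH.act0 Sy O) 𝔪 x) (j : ℕ) :
    0 < (bigLevel Sy 𝔪 H h j).d := by
  obtain ⟨x, hx0, hx⟩ := hx
  set E := BaseGamma0.baseEquiv Sy 𝔪 (Tower.Theta (Δs p e) H.psi 0) with hE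
  have hne : E ⟨x, hx⟩ ≠ 0 := by
    intro h0
    have h1 : (⟨x, hx⟩ : Base.locSub (HeckeActH.act0 Sy O) 𝔪) = 0 := E.map_eq_zero_iff.1 h0
    exact hx0 (congrArg Subtype.val h1)
  haveI : Nontrivial (Final.M0 Sy 𝔪 (Δs p e) H.psi) := ⟨⟨E ⟨x, hx⟩, 0, hne⟩⟩
  obtain ⟨i⟩ := (bigLevel Sy 𝔪 H h j).basis0.index_nonempty
  exact i.pos

/-- **`0 < d`** for the big level, from a non-zero primary element at the base level `M` -/
theorem bigLevel_d_pos (hℓ : Function.Injective Sy.ℓ) (hr : Function.Injective Sy.r)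
    (hsurj : Function.Surjective (algebraMap O κ)) (M : ℕ) [NeZero M]
    (lamBase lamTop : Sy.𝕋 O →ₐ[O] κ) (α β : Sy.ι₁ ⊕ Sy.ι₂ → O) (Q : Finset (Sy.ι₁ ⊕ Sy.ι₂))
    (hN : N = M * ∏ s ∈ Q, prSy Sy s) (hQM : ∀ s ∈ Q, ¬ prSy Sy s ∣ M)
    (hTW : ∀ s ∈ Q, TWCond (prSy Sy) lamBase lamTop α β s)
    (haway : ∀ s, s ∉ Q → lamTop (X s) = lamBase (X s))
    (h𝔪 : 𝔪 = RingHom.ker (lamTop : Sy.𝕋 O →+* κ))
    (hy : ∃ y : Additive (Gamma0 M) →+ O, y ≠ 0 ∧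
      IsLoc (actN O (prSy Sy) (prSy_prime Sy) M) (RingHom.ker (lamBase : Sy.𝕋 O →+* κ)) y)
    (j : ℕ) : 0 < (bigLevel Sy 𝔪 H h j).d :=
  bigLevel_d_pos_of_top Sy 𝔪 H h
    (exists_isLoc_ne_zero_top Sy hℓ hr hsurj M lamBase lamTop α β Q hN hQM hTW haway 𝔪 h𝔪 hy) j

/-- **`0 < d`** for the big level from `hres` at level `M` (all symbols good for `W`, prime to
`M p`) -/
theorem bigLevel_d_pos_of_hres (hℓ : Function.Injective Sy.ℓ) (hr : Function.Injective Sy.r)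
    (hsurj : Function.Surjective (algebraMap O κ)) (M : ℕ) [NeZero M]
    (lamBase lamTop : Sy.𝕋 O →ₐ[O] κ) (α β : Sy.ι₁ ⊕ Sy.ι₂ → O) (Q : Finset (Sy.ι₁ ⊕ Sy.ι₂))
    (hN : N = M * ∏ s ∈ Q, prSy Sy s) (hQM : ∀ s ∈ Q, ¬ prSy Sy s ∣ M)
    (hTW : ∀ s ∈ Q, TWCond (prSy Sy) lamBase lamTop α β s)
    (haway : ∀ s, s ∉ Q → lamTop (X s) = lamBase (X s))
    (h𝔪 : 𝔪 = RingHom.ker (lamTop : Sy.𝕋 O →+* κ))
    (W : WeierstrassCurve ℤ) (hres : W.IsResiduallyModularOfLevel p M)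
    (hgood : ∀ s, W.IsGoodPrimeFor (prSy Sy s) ∧ ¬ (prSy Sy s ∣ M) ∧ prSy Sy s ≠ p)
    (hκp : ((p : ℕ) : κ) = 0)
    (hX : ∀ s, lamBase (X s) = ((W.apOfModel (prSy Sy s) : ℤ) : κ)) (j : ℕ) :
    0 < (bigLevel Sy 𝔪 H h j).d :=
  bigLevel_d_pos_of_top Sy 𝔪 H h
    (exists_isLoc_ne_zero_of_hres Sy hℓ hr hsurj M lamBase lamTop α β Q hN hQM hTW haway 𝔪 h𝔪
      hpF.out W hres hgood hκp hX) j

/-! ### the same for `Plug.tw` -/

section TW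

variable (s k : ℕ) (c : Fin s → O) (hc : ∀ v : Fin s, c v ^ p ^ e (s + k - 1 - v) = 1)
  (hc1 : ∀ v, (1 : O) - c v ∈ Ideal.span {ϖ})

theorem tw_L1_d_le (hℓ : Function.Injective Sy.ℓ) (hr : Function.Injective Sy.r)
    (hsurj : Function.Surjective (algebraMap O κ)) (M : ℕ) [NeZero M]
    (lamBase lamTop : Sy.𝕋 O →ₐ[O] κ) (α β : Sy.ι₁ ⊕ Sy.ι₂ → O) (Q : Finset (Sy.ι₁ ⊕ Sy.ι₂))
    (hN : N = M * ∏ s ∈ Q, prSy Sy s) (hQM : ∀ s ∈ Q, ¬ prSy Sy s ∣ M)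
    (hTW : ∀ s ∈ Q, TWCond (prSy Sy) lamBase lamTop α β s)
    (haway : ∀ s, s ∉ Q → lamTop (X s) = lamBase (X s))
    (h𝔪 : 𝔪 = RingHom.ker (lamTop : Sy.𝕋 O →+* κ)) :
    (tw Sy 𝔪 H h s k c hc hc1).L1.d ≤ Module.finrank O (Additive (Gamma0 M) →+ O) :=
  bigLevel_d_le Sy 𝔪 H h hℓ hr hsurj M lamBase lamTop α β Q hN hQM hTW haway h𝔪 (s + k)

theorem tw_Lχ_d_le (hℓ : Function.Injective Sy.ℓ) (hr : Function.Injective Sy.r)
    (hsurj : Function.Surjective (algebraMap O κ)) (M : ℕ) [NeZero M]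
    (lamBase lamTop : Sy.𝕋 O →ₐ[O] κ) (α β : Sy.ι₁ ⊕ Sy.ι₂ → O) (Q : Finset (Sy.ι₁ ⊕ Sy.ι₂))
    (hN : N = M * ∏ s ∈ Q, prSy Sy s) (hQM : ∀ s ∈ Q, ¬ prSy Sy s ∣ M)
    (hTW : ∀ s ∈ Q, TWCond (prSy Sy) lamBase lamTop α β s)
    (haway : ∀ s, s ∉ Q → lamTop (X s) = lamBase (X s))
    (h𝔪 : 𝔪 = RingHom.ker (lamTop : Sy.𝕋 O →+* κ)) :
    (tw Sy 𝔪 H h s k c hc hc1).Lχ.d ≤ Module.finrank O (Additive (Gamma0 M) →+ O) :=
  bigLevel_d_le Sy 𝔪 H h hℓ hr hsurj M lamBase lamTop α β Q hN hQM hTW haway h𝔪 (s + k)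

theorem tw_L1_d_pos
    (hx : ∃ x : Additive (Gamma0 N) →+ O, x ≠ 0 ∧ IsLoc (HeckeActH.act0 Sy O) 𝔪 x) :
    0 < (tw Sy 𝔪 H h s k c hc hc1).L1.d :=
  bigLevel_d_pos_of_top Sy 𝔪 H h hx (s + k)

theorem tw_Lχ_d_pos
    (hx : ∃ x : Additive (Gamma0 N) →+ O, x ≠ 0 ∧ IsLoc (HeckeActH.act0 Sy O) 𝔪 x) :
    0 < (tw Sy 𝔪 H h s k c hc hc1).Lχ.d :=
  bigLevel_d_pos_of_top Sy 𝔪 H h hx (s + k)

end TW

end GB.B8.LevelPlug

end Fermat.Agent.GE8.P3B
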